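/-
IHARA / Asm (helper2), part 0: the ring `S = (𝒪⟦A_1..A_r⟧)⟦Z_{v,i,j}⟧` and its quotients
`B n = (𝒪⟦A⟧ ⧸ 𝔞_n)⟦Z⟧`: completeness, finiteness, dimension, `ker (S → B n) → 0`.
-/
import Mathlib
import Fermat.Agent.Lib.S53.PowerSeriesP
import Fermat.Agent.Lib.Ihara.P.Extra

set_option autoImplicit false
set_option linter.unusedSectionVars false
set_option linter.unusedVariables false
set_option linter.style.haveILetI false

open Fermat.Agent.S53Lib IsLocalRing MvPowerSeries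

namespace Fermat.Agent.Ihara

/-- the ring of Taylor–Wiles variables `𝒪⟦A_1, …, A_r⟧` -/
abbrev IhaS₀ (𝒪 : Type) [CommRing 𝒪] (r : ℕ) : Type := MvPowerSeries (Fin r) 𝒪

/-- the level-`n` ideal `((1 + A_i)^(p^n) - 1, 𝔪^n)` of `𝒪⟦A_1, …, A_r⟧` -/
noncomputable def ihaIdeal (𝒪 : Type) [CommRing 𝒪] [IsLocalRing 𝒪] (r p n : ℕ) :
    Ideal (IhaS₀ 𝒪 r) :=
  Ideal.span (Set.range fun i : Fin r => (1 + X i : IhaS₀ 𝒪 r) ^ (p ^ n) - 1) ⊔
    maximalIdeal (IhaS₀ 𝒪 r) ^ n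

section General

variable {R : Type*} [CommRing R] [IsLocalRing R] {σ : Type*} [Finite σ]

/-- the residue field of `R⟦X_σ⟧` is finite if that of `R` is -/
theorem iha_finite_residueField [Finite (ResidueField R)] :
    Finite (ResidueField (MvPowerSeries σ R)) := by
  have hloc : IsLocalHom (algebraMap R (MvPowerSeries σ R)) := isLocalHom_algebraMap
  refine Finite.of_surjective (ResidueField.map (algebraMap R (MvPowerSeries σ R))) ?_
  intro y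
  obtain ⟨r, hr⟩ := residue_comp_algebraMap_surjective (σ := σ) (R := R) y
  exact ⟨residue R r, by rw [ResidueField.map_residue]; exact hr⟩

theorem iha_finite_quot_pow [IsNoetherianRing R] [Finite (ResidueField R)] (n : ℕ) :
    Finite (MvPowerSeries σ R ⧸ maximalIdeal (MvPowerSeries σ R) ^ n) := by
  have : Finite (MvPowerSeries σ R ⧸ maximalIdeal (MvPowerSeries σ R)) :=
    iha_finite_residueField
  exact Ideal.finite_quotient_pow (IsNoetherian.noetherian _) n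

/-- a power series all of whose coefficients lie in `𝔪_R ^ k` lies in `𝔪 ^ k` -/
theorem iha_mem_pow_of_coeff (k : ℕ) (f : MvPowerSeries σ R)
    (hf : ∀ x, coeff x f ∈ maximalIdeal R ^ k) : f ∈ maximalIdeal (MvPowerSeries σ R) ^ k := by
  rw [maximalIdeal_eq_idealMX, mem_idealMX_pow_iff]
  intro x hx
  exact Ideal.pow_le_pow_right (Nat.sub_le k _) (hf x)

/-- Krull dimension of `R⟦X_σ⟧` -/
theorem iha_ringKrullDim_ge : ringKrullDim R + (Nat.card σ : ℕ) ≤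
    ringKrullDim (MvPowerSeries σ R) := by
  classical
  haveI : Fintype σ := Fintype.ofFinite σ
  have e : σ ≃ Fin (Nat.card σ) := by
    rw [Nat.card_eq_fintype_card]
    exact Fintype.equivFin σ
  rw [ringKrullDim_eq_of_ringEquiv (MvPowerSeries.renameEquiv R e).toRingEquiv]
  exact ihp_ringKrullDim_mvPowerSeries_ge R (Nat.card σ)

end General

section S

variable (𝒪 : Type) [CommRing 𝒪] [IsDomain 𝒪] [IsDiscreteValuationRing 𝒪]
  [IsAdicComplete (maximalIdeal 𝒪) 𝒪] [Finite (ResidueField 𝒪)]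
  (r p n : ℕ) (F : Type) [Finite F]

/-- `S = 𝒪⟦A⟧⟦Z⟧` -/
abbrev IhaS : Type := MvPowerSeries F (IhaS₀ 𝒪 r)

/-- `B n = (𝒪⟦A⟧ ⧸ 𝔞_n)⟦Z⟧` -/
abbrev IhaB : Type := MvPowerSeries F (IhaS₀ 𝒪 r ⧸ ihaIdeal 𝒪 r p n)

/-- the projection `S → B n` -/
noncomputable def ihaPi : IhaS 𝒪 r F →+* IhaB 𝒪 r p n F :=
  MvPowerSeries.map (Ideal.Quotient.mk (ihaIdeal 𝒪 r p n))

theorem ihaPi_surjective : Function.Surjective (ihaPi 𝒪 r p n F) := by
  intro g
  choose c hc using fun x => Ideal.Quotient.mk_surjective (I := ihaIdeal 𝒪 r p n) (coeff x g)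
  refine ⟨(show IhaS 𝒪 r F from fun x => c x), ?_⟩
  ext x
  rw [ihaPi, coeff_map]
  exact hc x

instance iha_isAdicComplete_S₀ :
    IsAdicComplete (maximalIdeal (IhaS₀ 𝒪 r)) (IhaS₀ 𝒪 r) := isAdicComplete_maximalIdeal

instance iha_isAdicComplete_S :
    IsAdicComplete (maximalIdeal (IhaS 𝒪 r F)) (IhaS 𝒪 r F) := isAdicComplete_maximalIdeal

theorem iha_finite_S (k : ℕ) : Finite (IhaS 𝒪 r F ⧸ maximalIdeal (IhaS 𝒪 r F) ^ k) := by
  haveI : Finite (ResidueField (IhaS₀ 𝒪 r)) := iha_finite_residueField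
  exact iha_finite_quot_pow k

theorem ihaIdeal_le {p : ℕ} (hp : (p : 𝒪) ∈ maximalIdeal 𝒪) :
    ihaIdeal 𝒪 r p n ≤ maximalIdeal (IhaS₀ 𝒪 r) ^ n := by
  refine sup_le ?_ le_rfl
  rw [Ideal.span_le]
  rintro _ ⟨i, rfl⟩
  have hpS : ((p : ℕ) : IhaS₀ 𝒪 r) ∈ maximalIdeal (IhaS₀ 𝒪 r) := by
    have h1 : ((p : ℕ) : IhaS₀ 𝒪 r) = C (σ := Fin r) (R := 𝒪) (p : 𝒪) := by
      rw [map_natCast]
    rw [h1, maximalIdeal_eq_idealMX]
    exact map_C_le_idealMX _ (Ideal.mem_map_of_mem _ hp)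
  have hX : (X i : IhaS₀ 𝒪 r) ∈ maximalIdeal (IhaS₀ 𝒪 r) := by
    rw [maximalIdeal_eq_idealMX]
    exact span_X_le_idealMX _ (Ideal.subset_span ⟨i, rfl⟩)
  exact Ideal.pow_le_pow_right (Nat.le_succ n)
    (ihp_one_add_pow_sub_one_mem (maximalIdeal (IhaS₀ 𝒪 r)) hpS hX n)

/-- the kernels of `S → B n` tend to `0` -/
theorem ihaPi_ker_le {p : ℕ} (hp : (p : 𝒪) ∈ maximalIdeal 𝒪) (k : ℕ) :
    ∃ n₀, ∀ n, n₀ ≤ n → RingHom.ker (ihaPi 𝒪 r p n F) ≤ maximalIdeal (IhaS 𝒪 r F) ^ k := by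
  refine ⟨k, fun n hn f hf => ?_⟩
  refine iha_mem_pow_of_coeff k f fun x => ?_
  have h1 : coeff x (ihaPi 𝒪 r p n F f) = 0 := by
    rw [RingHom.mem_ker] at hf
    rw [hf, map_zero]
  rw [ihaPi, coeff_map, Ideal.Quotient.eq_zero_iff_mem] at h1
  exact Ideal.pow_le_pow_right hn (ihaIdeal_le 𝒪 r n hp h1)

/-- `dim S ≥ 1 + r + |F|` -/
theorem iha_ringKrullDim_S :
    ((1 + r + Nat.card F : ℕ) : WithBot ℕ∞) ≤ ringKrullDim (IhaS 𝒪 r F) := by
  have h𝒪 : ¬ IsField 𝒪 := IsDiscreteValuationRing.not_isField 𝒪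
  have h1 : ((r + 1 : ℕ) : WithBot ℕ∞) ≤ ringKrullDim (IhaS₀ 𝒪 r) :=
    ihp_ringKrullDim_mvPowerSeries_ge_succ 𝒪 h𝒪 r
  have h2 := iha_ringKrullDim_ge (R := IhaS₀ 𝒪 r) (σ := F)
  refine le_trans ?_ h2
  have : ((1 + r + Nat.card F : ℕ) : WithBot ℕ∞) = ((r + 1 : ℕ) : WithBot ℕ∞) + (Nat.card F : ℕ) := by
    push_cast
    ring
  rw [this]
  exact add_le_add_left h1 _

end S

end Fermat.Agent.Ihara
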