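/-
IHARA / Asm (helper2), part 1: definitions for **the final assembly**
`[G1] + [L] + [P] + level data ⟹ False` (the theorem `iha_main` is in `Asm/Main.lean`).

Fixed: a complete DVR `𝒪` with finite residue field `k`, uniformiser `ϖ`, `ρbar`, the finite set
`Tc` of C-primes with Frobenius lifts `φv` and tame generators `σv`, the admissible roots of unity
`μ v ⊆ 𝒪ˣ` (the nontrivial `p`-power roots of unity of order dividing `v - 1`), the signs `cs v`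
(`ρbar (φv v) = cs v`), the distinguished prime `q₀ ∈ Tc`, the number `r` of Taylor–Wiles primes
(from `[G1]`) and the rank `d` of the Hecke module.

* `IhaS₀ 𝒪 r = 𝒪⟦A_1, …, A_r⟧`, `ihaIdeal 𝒪 r p n = ((1 + A_i)^(p^n) - 1, 𝔪^n)`;
* `IhaLevel … qv n` : what the Hecke side delivers for a set `qv` of TW primes of level `n`:
  a complete local Noetherian `𝒪`-algebra `A` with a trace-determined strict lift `rA` of type
  `twCond` satisfying the type-`χ` relations at `Tc`, and an `𝒪`-algebra hom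
  `τ : A → Mat_d (IhaS₀ ⧸ ihaIdeal n)` whose image contains the scalars, such that
  `t = tr rA(φ_{q₀}) - c_{q₀} (1 + q₀)` goes to a multiple of `ϖ`;
* `IhaG1 … r` : the conclusion of `ihg_main_of_contracts` for a given `r`;
* `iha_main` : `IhaG1 r` + (`IhaLevel` for all admissible `qv`, `n`) `⟹ False`.
-/
import Mathlib
import Fermat.Agent.Lib.Ihara.G1.Main
import Fermat.Agent.Lib.Ihara.L.Eval
import Fermat.Agent.Lib.Ihara.P.Extra
import Fermat.Agent.Lib.Ihara.P.Coeff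
import Fermat.Agent.Lib.Ihara.Asm.Ring

set_option autoImplicit false
set_option linter.unusedSectionVars false
set_option linter.unusedVariables false
set_option linter.style.haveILetI false

open Fermat.Agent.S53Lib Fermat.Agent.TW IsLocalRing groupCohomology ExtCitation CategoryTheory
  GaloisRep MvPowerSeries

namespace Fermat.Agent.Ihara

section

variable {𝒪 : Type} [CommRing 𝒪] [IsDomain 𝒪] [IsDiscreteValuationRing 𝒪]
  [IsAdicComplete (maximalIdeal 𝒪) 𝒪] [Finite (ResidueField 𝒪)]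

variable (p : ℕ) [Fact p.Prime] (ρbar : ResidualGaloisRep (ResidueField 𝒪))
  (b : Module.Basis (Fin 2) (ResidueField 𝒪) ρbar.V)
  (X : ∀ ⦃A : Type⦄ [CommRing A] [IsLocalRing A], GaloisRepAdic A → Prop)

/-- **the level datum** delivered by the Hecke side for the Taylor–Wiles set `qv` at level `n` -/
def IhaLevel (Smin : Finset ℕ) (Tc : Finset Nat.Primes) (φv σv : Nat.Primes → GQ) (ϖ : 𝒪)
    (μ : ↥Tc → Finset 𝒪ˣ) (cs : ↥Tc → 𝒪ˣ) (q₀ : ↥Tc) (r d : ℕ) (qv : Fin r → ℕ) (n : ℕ) : Prop :=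
  ∃ (A : Type) (_ : CommRing A) (_ : IsLocalRing A) (_ : IsNoetherianRing A)
    (_ : IsAdicComplete (maximalIdeal A) A) (_ : Algebra 𝒪 A) (_ : IsLocalHom (algebraMap 𝒪 A))
    (rA : GQ →* Matrix (Fin 2) (Fin 2) A) (hcts : MatCts A rA)
    (τ : A →ₐ[𝒪] Matrix (Fin d) (Fin d) (IhaS₀ 𝒪 r ⧸ ihaIdeal 𝒪 r p n)),
    Function.Surjective (residue A ∘ algebraMap 𝒪 A) ∧
    IsStrictLift (𝒪 := 𝒪) (resMat ρbar b) rA ∧
    twCond 𝒪 X p Smin (Smin ∪ ihgNat Tc ∪ Finset.univ.image qv) (ofMat rA hcts) ∧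
    IhgTraceDet (𝒪 := 𝒪) rA ∧
    (∀ v : ↥Tc, ∏ ζ ∈ μ v, ((rA (σv v)).trace -
      algebraMap 𝒪 A ((ζ : 𝒪) + ((ζ⁻¹ : 𝒪ˣ) : 𝒪))) = 0) ∧
    (∀ v : ↥Tc, rA (φv v) * rA (σv v) = rA (σv v) * rA (φv v)) ∧
    (∀ v : ↥Tc, (rA (σv v)).det = 1) ∧
    (∀ v : ↥Tc, (rA (φv v)).det = (((v : Nat.Primes) : ℕ) : A)) ∧
    (∀ s : IhaS₀ 𝒪 r, ∃ t : A, τ t = Matrix.scalar (Fin d) (Ideal.Quotient.mk _ s)) ∧
    ∃ Y : Matrix (Fin d) (Fin d) (IhaS₀ 𝒪 r ⧸ ihaIdeal 𝒪 r p n),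
      τ ((rA (φv q₀)).trace - algebraMap 𝒪 A ((cs q₀ : 𝒪) * (1 + (((q₀ : Nat.Primes) : ℕ) : 𝒪)))) =
        algebraMap 𝒪 (IhaS₀ 𝒪 r ⧸ ihaIdeal 𝒪 r p n) ϖ • Y

/-- the surjectivity clause of `[G1]` for one Taylor–Wiles set `qv` -/
def IhaG1At (Smin : Finset ℕ) (Tc : Finset Nat.Primes) (φv σv : Nat.Primes → GQ) (r : ℕ)
    (qv : Fin r → ℕ) : Prop :=
  ∀ (A : Type) [CommRing A] [IsLocalRing A] [IsNoetherianRing A]
    [IsAdicComplete (maximalIdeal A) A] [Algebra 𝒪 A] [IsLocalHom (algebraMap 𝒪 A)]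
    (_hres : Function.Surjective (residue A ∘ algebraMap 𝒪 A))
    (rA : GQ →* Matrix (Fin 2) (Fin 2) A) (hcts : MatCts A rA)
    (_hstrict : IsStrictLift (𝒪 := 𝒪) (resMat ρbar b) rA)
    (_htype : twCond 𝒪 X p Smin (Smin ∪ ihgNat Tc ∪ Finset.univ.image qv) (ofMat rA hcts))
    (_htr : IhgTraceDet (𝒪 := 𝒪) rA)
    (Λ : Type) [CommRing Λ] [IsLocalRing Λ] [IsAdicComplete (maximalIdeal Λ) Λ]
    [Algebra 𝒪 Λ] [Algebra Λ (IhgFrame A ↥Tc)] [IsScalarTower 𝒪 Λ (IhgFrame A ↥Tc)]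
    [IsLocalHom (algebraMap Λ (IhgFrame A ↥Tc))]
    (Φ Sg : ↥Tc → Matrix (Fin 2) (Fin 2) Λ)
    (_hΦ : ∀ v : ↥Tc, ihgBeta A ↥Tc v * (Φ v).map (algebraMap Λ (IhgFrame A ↥Tc)) =
      (rA (φv v)).map (C (σ := ↥Tc × Fin 2 × Fin 2) (R := A)) * ihgBeta A ↥Tc v)
    (_hSg : ∀ v : ↥Tc, ihgBeta A ↥Tc v * (Sg v).map (algebraMap Λ (IhgFrame A ↥Tc)) =
      (rA (σv v)).map (C (σ := ↥Tc × Fin 2 × Fin 2) (R := A)) * ihgBeta A ↥Tc v),
    ∃ γ : MvPowerSeries (Fin (r + Tc.card)) Λ →ₐ[Λ] IhgFrame A ↥Tc,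
      Function.Surjective γ

/-- the conclusion of `[G1]` (`ihg_main_of_contracts`) for a given number `r` of TW primes -/
def IhaG1 (S Smin : Finset ℕ) (Tc : Finset Nat.Primes) (φv σv : Nat.Primes → GQ) (r : ℕ) : Prop :=
  ∀ n : ℕ, ∃ qv : Fin r → ℕ, Function.Injective qv ∧
    (∀ i, (qv i).Prime ∧ qv i ∉ S ∧ p ^ (n + 1) ∣ qv i - 1) ∧
    (∀ i, IsTWPrime ρbar (qv i)) ∧
    IhaG1At p ρbar b X Smin Tc φv σv r qv

attribute [local instance] dualNumberAlgebra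
attribute [local instance] isLocalHom_algebraMap_dualNumber

/-- `[G1]` in the form consumed by `iha_main` -/
theorem iha_g1_of_contracts [Algebra (ZMod p) (ResidueField 𝒪)]
    (hXbc : ∀ ⦃A : Type⦄ [CommRing A] [IsLocalRing A]
      (φ : A →+* DualNumber (ResidueField 𝒪)) (hφ : IsLocalHom φ), Function.Surjective φ →
      ∀ ρ : GaloisRepAdic A, X ρ → X (ρ.baseChangeAlong φ hφ))
    (hpk : (p : ResidueField 𝒪) = 0)
    (S Smin : Finset ℕ) (hpSmin : p ∈ Smin) (hSmin : Smin ⊆ S)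
    (hmin : ∀ q : ℕ, q.Prime → q ≠ p → (q ∈ Smin ↔ ¬ ρbar.IsUnramifiedAt q))
    (Tc : Finset Nat.Primes) (hTcSmin : ∀ v ∈ Tc, (v : ℕ) ∉ Smin)
    (φv σv : Nat.Primes → GQ)
    (hφv : ∀ v ∈ Tc, (primeLocalPlace v).IsFrobeniusAt (φv v) (v : ℕ))
    (hσv : ∀ v ∈ Tc, IhgGen p (primeLocalPlace v) (σv v))
    (hscal : ∀ v ∈ Tc, ∃ c : ResidueField 𝒪, ρbar.ρ (φv v) = c • 1)
    (tp : LocalPairings (ad0Rep ρbar) (tateDual p (ad0Rep ρbar)))
    (hGW : ContractGW p (ad0Rep ρbar) (tateDual p (ad0Rep ρbar)) tp)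
    (hLocP : ContractLocP p ρbar b (fun ρ' => ρ'.DetIsCyclotomic p ∧ X ρ'))
    (hLocMin : ContractLocMin p ρbar b) (hLocTW : ContractLocTW p ρbar)
    (hArch : ContractArch ρbar) (hH0 : ContractH0 ρbar)
    (hTW : ∀ L : LocalConditions (ad0Rep ρbar), ContractTW p ρbar S (Smin ∪ ihgNat Tc) tp L) :
    ∃ r : ℕ, IhaG1 p ρbar b X S Smin Tc φv σv r :=
  ihg_main_of_contracts p ρbar b X hXbc hpk S Smin hpSmin hSmin hmin Tc hTcSmin φv σv hφv hσv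
    hscal tp hGW hLocP hLocMin hLocTW hArch hH0 hTW

end

end Fermat.Agent.Ihara
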