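/-
IHARA / Asm (helper2), part 2: **the Hecke-module datum at one level** and the algebra step
`IhaHecke ⟹ IhaLevel`.

`IhaHecke … qv n` is what the modular side has to construct for a Taylor–Wiles set `qv`
(`qv i ≡ 1 mod p^(n+1)`):

* the Hecke ring `A` (complete local Noetherian `𝒪`-algebra) with the matrix representation `rA`
  (strict lift of `ρbar`, type `twCond`, trace-determined) and the type-`χ` relations at `Tc`;
* the Hecke module `M` (`= M^χ_n`, finite over `𝒪`, without `p`-torsion) with the action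
  `ρM : A →ₐ[𝒪] End_𝒪 M`;
* the diamond group `G = Δ_Q` (finite abelian, generated by `γ i` of order `p ^ c i`, `n ≤ c i`,
  free on these generators: `huniv`) acting on `M` through `x`, commuting with `A`, such that `M`
  is free over `𝒪[G]` on `w : Fin d → M` (helper1's `ihm_free'` + `Hm/Chi`);
* the inertia scalars `aq i : A` (`aq i ^ (p ^ c i) = 1`) with
  (SC) `(aq i - 1) M ⊆ (x (γ i) - 1) M` and
  (WL) `aq i` has no fixed vector in `ker Φ_p (x (γ i))`;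
* (E′) `t = tr rA(φ_{q₀}) - c_{q₀} (1 + q₀)` maps `M` into `ϖ M`.

`iha_level_of_hecke` (pure algebra: `ihp_inertia_free` + `ihp_mat_of_basis` + truncation of power
series) turns this into the `IhaLevel` consumed by `iha_main`.
-/
import Mathlib
import Fermat.Agent.Lib.Ihara.Asm.Defs
import Fermat.Agent.Lib.Ihara.P.InertiaFree
import Fermat.Agent.Lib.Ihara.P.Mat

set_option autoImplicit false
set_option linter.unusedSectionVars false
set_option linter.unusedVariables false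
set_option linter.style.haveILetI false

open Fermat.Agent.S53Lib Fermat.Agent.TW IsLocalRing groupCohomology ExtCitation CategoryTheory
  GaloisRep MvPowerSeries

namespace Fermat.Agent.Ihara

section

variable {𝒪 : Type} [CommRing 𝒪] [IsDomain 𝒪] [IsDiscreteValuationRing 𝒪]
  [IsAdicComplete (maximalIdeal 𝒪) 𝒪] [Finite (ResidueField 𝒪)]

variable (p : ℕ) [Fact p.Prime] (ρbar : ResidualGaloisRep (ResidueField 𝒪))
  (b : Module.Basis (Fin 2) (ResidueField 𝒪) ρbar.V)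
  (X : ∀ ⦃A : Type⦄ [CommRing A] [IsLocalRing A], GaloisRepAdic A → Prop)

/-- **the Hecke-module datum** at the Taylor–Wiles set `qv`, level `n` -/
def IhaHecke (Smin : Finset ℕ) (Tc : Finset Nat.Primes) (φv σv : Nat.Primes → GQ) (ϖ : 𝒪)
    (μ : ↥Tc → Finset 𝒪ˣ) (cs : ↥Tc → 𝒪ˣ) (q₀ : ↥Tc) (r d : ℕ) (qv : Fin r → ℕ) (n : ℕ) : Prop :=
  ∃ (A : Type) (_ : CommRing A) (_ : IsLocalRing A) (_ : IsNoetherianRing A)
    (_ : IsAdicComplete (maximalIdeal A) A) (_ : Algebra 𝒪 A) (_ : IsLocalHom (algebraMap 𝒪 A))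
    (rA : GQ →* Matrix (Fin 2) (Fin 2) A) (hcts : MatCts A rA)
    (M : Type) (_ : AddCommGroup M) (_ : Module 𝒪 M) (_ : Module.Finite 𝒪 M)
    (ρM : A →ₐ[𝒪] Module.End 𝒪 M)
    (G : Type) (_ : CommGroup G) (_ : Finite G) (x : G →* Module.End 𝒪 M)
    (w : Fin d → M) (bM : Module.Basis (Fin d × G) 𝒪 M)
    (γ : Fin r → G) (c : Fin r → ℕ) (aq : Fin r → A),
    -- the representation
    Function.Surjective (residue A ∘ algebraMap 𝒪 A) ∧
    IsStrictLift (𝒪 := 𝒪) (resMat ρbar b) rA ∧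
    twCond 𝒪 X p Smin (Smin ∪ ihgNat Tc ∪ Finset.univ.image qv) (ofMat rA hcts) ∧
    IhgTraceDet (𝒪 := 𝒪) rA ∧
    -- the type-`χ` relations at `Tc`
    (∀ v : ↥Tc, ∏ ζ ∈ μ v, ((rA (σv v)).trace -
      algebraMap 𝒪 A ((ζ : 𝒪) + ((ζ⁻¹ : 𝒪ˣ) : 𝒪))) = 0) ∧
    (∀ v : ↥Tc, rA (φv v) * rA (σv v) = rA (σv v) * rA (φv v)) ∧
    (∀ v : ↥Tc, (rA (σv v)).det = 1) ∧
    (∀ v : ↥Tc, (rA (φv v)).det = (((v : Nat.Primes) : ℕ) : A)) ∧
    -- the module: free over `𝒪[G]` for the diamond action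
    (∀ t g, Commute (ρM t) (x g)) ∧
    (∀ j g, bM (j, g) = x g (w j)) ∧
    -- the group `G = Δ_Q`
    (∀ i, n ≤ c i ∧ 0 < c i ∧ orderOf (γ i) = p ^ c i) ∧
    Subgroup.closure (Set.range γ) = ⊤ ∧
    (∀ (Y : Type) [CommMonoid Y] (y : Fin r → Y), (∀ i, y i ^ (p ^ c i) = 1) →
      ∃ f : G →* Y, ∀ i, f (γ i) = y i) ∧
    -- the inertia scalars
    (∀ i, aq i ^ (p ^ c i) = 1) ∧
    (∀ i v, ∃ u, ρM (aq i) v - v = x (γ i) u - u) ∧
    (∀ i v, (∑ k ∈ Finset.range p, x (γ i) ^ k : Module.End 𝒪 M) v = 0 → ρM (aq i) v = v →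
      v = 0) ∧
    -- (E′)
    (∀ v, ∃ v', ρM ((rA (φv q₀)).trace -
      algebraMap 𝒪 A ((cs q₀ : 𝒪) * (1 + (((q₀ : Nat.Primes) : ℕ) : 𝒪)))) v = ϖ • v')

/-- `mk (1 + X i)` has order dividing `p ^ c` in `IhaS₀ ⧸ ihaIdeal n` when `n ≤ c` -/
theorem iha_one_add_X_pow (r n c : ℕ) (hnc : n ≤ c) (i : Fin r) :
    (Ideal.Quotient.mk (ihaIdeal 𝒪 r p n) (1 + MvPowerSeries.X i : IhaS₀ 𝒪 r)) ^ (p ^ c) = 1 := by
  obtain ⟨k, rfl⟩ := Nat.exists_eq_add_of_le hnc
  rw [pow_add, pow_mul]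
  have h1 : (Ideal.Quotient.mk (ihaIdeal 𝒪 r p n) (1 + MvPowerSeries.X i : IhaS₀ 𝒪 r)) ^ (p ^ n)
      = 1 := by
    rw [← map_pow, ← map_one (Ideal.Quotient.mk (ihaIdeal 𝒪 r p n)), Ideal.Quotient.eq]
    exact Ideal.mem_sup_left (Ideal.subset_span ⟨i, rfl⟩)
  rw [h1, one_pow]

/-- every power series is a polynomial modulo `ihaIdeal n` -/
theorem iha_exists_poly (r n : ℕ) (s : IhaS₀ 𝒪 r) :
    ∃ P : MvPolynomial (Fin r) 𝒪, Ideal.Quotient.mk (ihaIdeal 𝒪 r p n) s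
      = Ideal.Quotient.mk (ihaIdeal 𝒪 r p n) (P : IhaS₀ 𝒪 r) := by
  refine ⟨truncTotal n s, ?_⟩
  rw [Ideal.Quotient.eq]
  refine Ideal.mem_sup_right ?_
  have h1 := sub_truncTotal_mem_span_X_pow n s
  have h2 : Ideal.span (Set.range (MvPowerSeries.X : Fin r → IhaS₀ 𝒪 r))
      ≤ maximalIdeal (IhaS₀ 𝒪 r) := by
    rw [maximalIdeal_eq_idealMX]
    exact span_X_le_idealMX _
  exact Ideal.pow_right_mono h2 n h1

/-- **the algebra step**: a Hecke-module datum gives a level datum. -/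
theorem iha_level_of_hecke (hp2 : 2 < p) (hp𝒪 : (p : 𝒪) ∈ maximalIdeal 𝒪) (hp0 : (p : 𝒪) ≠ 0)
    (Smin : Finset ℕ) (Tc : Finset Nat.Primes) (φv σv : Nat.Primes → GQ) (ϖ : 𝒪)
    (μ : ↥Tc → Finset 𝒪ˣ) (cs : ↥Tc → 𝒪ˣ) (q₀ : ↥Tc) (r d : ℕ) (qv : Fin r → ℕ) (n : ℕ)
    (h : IhaHecke p ρbar b X Smin Tc φv σv ϖ μ cs q₀ r d qv n) :
    IhaLevel p ρbar b X Smin Tc φv σv ϖ μ cs q₀ r d qv n := by
  classical
  obtain ⟨A, iA1, iA2, iA3, iA4, iA5, iA6, rA, hcts, M, iM1, iM2, iM3, ρM, G, iG1, iG2, x, w, bM,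
    γ, c, aq, hres, hstrict, htype, htr, hprod, hcommT, hdetσ, hdetφ, hρx, hbM, hγ, hgen, huniv,
    haq, hsc, hwl, hE⟩ := h
  have hp : p.Prime := Fact.out
  -- the inertia action of `G`
  obtain ⟨fa, hfa⟩ := huniv A aq haq
  set a : G →* Module.End 𝒪 M := ((ρM : A →+* Module.End 𝒪 M) : A →* Module.End 𝒪 M).comp fa
    with ha
  have haγ : ∀ i, a (γ i) = ρM (aq i) := fun i => by
    show ρM (fa (γ i)) = ρM (aq i)
    rw [hfa]
  have htf : ∀ v : M, (p : 𝒪) • v = 0 → v = 0 := by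
    intro v hv
    have h1 : bM.repr ((p : 𝒪) • v) = 0 := by rw [hv, map_zero]
    rw [map_smul] at h1
    have h2 : bM.repr v = 0 := by
      ext jg
      have h3 := congrArg (fun f : Fin d × G →₀ 𝒪 => f jg) h1
      simp only [Finsupp.smul_apply, smul_eq_mul, Finsupp.zero_apply] at h3
      rcases mul_eq_zero.mp h3 with h4 | h4
      · exact absurd h4 hp0
      · exact h4
    exact (LinearEquiv.map_eq_zero_iff bM.repr).mp h2
  obtain ⟨_, b', hb'⟩ := ihp_inertia_free hp hp2 hp𝒪 htf x a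
    (fun g g' => (hρx (fa g') g).symm) w bM hbM γ c (fun i => (hγ i).2.1) (fun i => (hγ i).2.2)
    hgen (fun i v => by rw [haγ]; exact hsc i v) (fun i v h1 h2 => hwl i v h1 (by rw [← haγ]; exact h2))
  -- the hom `u`
  obtain ⟨u, hu⟩ := huniv (IhaS₀ 𝒪 r ⧸ ihaIdeal 𝒪 r p n)
    (fun i => Ideal.Quotient.mk (ihaIdeal 𝒪 r p n) (1 + MvPowerSeries.X i : IhaS₀ 𝒪 r))
    (fun i => iha_one_add_X_pow p r n (c i) (hγ i).1 i)
  obtain ⟨τ, hτ1, hτ2⟩ := ihp_mat_of_basis a w b' hb' u ρM (fun t g => by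
    show Commute (ρM t) (ρM (fa g))
    exact (Commute.all t (fa g)).map ρM)
  refine ⟨A, iA1, iA2, iA3, iA4, iA5, iA6, rA, hcts, τ, hres, hstrict, htype, htr, hprod, hcommT,
    hdetσ, hdetφ, ?_, ?_⟩
  · -- scalars
    intro s
    obtain ⟨P, hP⟩ := iha_exists_poly p r n s
    refine ⟨MvPolynomial.aeval (fun i => aq i - 1) P, ?_⟩
    rw [hP]
    have hX : ∀ i, τ (aq i - 1) = Matrix.scalar (Fin d)
        (Ideal.Quotient.mk (ihaIdeal 𝒪 r p n) (MvPowerSeries.X i : IhaS₀ 𝒪 r)) := by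
      intro i
      rw [map_sub, map_one, hτ1 (aq i) (γ i) (haγ i).symm, hu, map_add, map_one, map_add, map_one,
        add_sub_cancel_left]
    have key : ∀ P : MvPolynomial (Fin r) 𝒪, τ (MvPolynomial.aeval (fun i => aq i - 1) P)
        = Matrix.scalar (Fin d) (Ideal.Quotient.mk (ihaIdeal 𝒪 r p n) (P : IhaS₀ 𝒪 r)) := by
      intro P
      induction P using MvPolynomial.induction_on with
      | C c =>
        rw [MvPolynomial.aeval_C, AlgHom.commutes, MvPolynomial.coe_C,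
          Matrix.algebraMap_eq_diagonal]
        ext j j'
        by_cases hjj : j = j'
        · subst hjj
          simp [Algebra.algebraMap_eq_smul_one, MvPowerSeries.c_eq_algebraMap]
          have : (Ideal.Quotient.mkₐ 𝒪 (ihaIdeal 𝒪 r p n)) (c • (1 : IhaS₀ 𝒪 r)) = c • 1 := by
            rw [map_smul, map_one]
          exact this.symm
        · simp [Matrix.diagonal_apply, hjj]
      | add P Q hP hQ =>
        rw [map_add, map_add, hP, hQ, MvPolynomial.coe_add, map_add, map_add]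
      | mul_X P i hP =>
        rw [map_mul, map_mul, hP, MvPolynomial.aeval_X, hX, MvPolynomial.coe_mul,
          MvPolynomial.coe_X, map_mul, map_mul]
    exact key P
  · -- (E′)
    exact hτ2 _ ϖ hE

end

end Fermat.Agent.Ihara
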