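/-
IHARA / Asm (helper2), part 3: **the level-`n` patching datum** `Θ n : R →+* Mat_d (B n)`
from the level datum `IhaLevel` and the surjectivity clause of `[G1]`.
-/
import Mathlib
import Fermat.Agent.Lib.Ihara.Asm.Defs

set_option autoImplicit false
set_option linter.unusedSectionVars false
set_option linter.unusedVariables false
set_option linter.style.haveILetI false
set_option maxHeartbeats 1000000

open Fermat.Agent.S53Lib Fermat.Agent.TW IsLocalRing groupCohomology ExtCitation CategoryTheory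
  GaloisRep MvPowerSeries

namespace Fermat.Agent.Ihara

section Eval

variable {𝒪 : Type} [CommRing 𝒪] [IsLocalRing 𝒪] {T G : Type} [Finite T] [Finite G]
  {B : Type} [CommRing B] [Algebra 𝒪 B] [IsLocalRing B] [IsAdicComplete (maximalIdeal B) B]

theorem ihlEvalVal_mem (Sg Ph : T → Matrix (Fin 2) (Fin 2) B)
    (hSg : ∀ q i j, (Sg q - 1) i j ∈ maximalIdeal B)
    (hPh : ∀ q i j, (Ph q - 1) i j ∈ maximalIdeal B)
    (xs : G → B) (hxs : ∀ γ, xs γ ∈ maximalIdeal B) :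
    ∀ x, ihlEvalVal Sg Ph xs x ∈ maximalIdeal B := by
  rintro (⟨q, b, i, j⟩ | γ)
  · cases b
    · exact hSg q i j
    · exact hPh q i j
  · exact hxs γ

/-- the point of `IhlR` defined by matrices and elements of the maximal ideal -/
noncomputable def ihaEval (Sg Ph : T → Matrix (Fin 2) (Fin 2) B)
    (hSg : ∀ q i j, (Sg q - 1) i j ∈ maximalIdeal B)
    (hPh : ∀ q i j, (Ph q - 1) i j ∈ maximalIdeal B)
    (xs : G → B) (hxs : ∀ γ, xs γ ∈ maximalIdeal B) : IhlR 𝒪 T G →ₐ[𝒪] B :=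
  evalAdic (maximalIdeal B) (ihlEvalVal Sg Ph xs) (ihlEvalVal_mem Sg Ph hSg hPh xs hxs)

variable (Sg Ph : T → Matrix (Fin 2) (Fin 2) B)
    (hSg : ∀ q i j, (Sg q - 1) i j ∈ maximalIdeal B)
    (hPh : ∀ q i j, (Ph q - 1) i j ∈ maximalIdeal B)
    (xs : G → B) (hxs : ∀ γ, xs γ ∈ maximalIdeal B)

theorem ihaEval_X (x : IhlIdx T G) :
    ihaEval (𝒪 := 𝒪) Sg Ph hSg hPh xs hxs (X x) = ihlEvalVal Sg Ph xs x :=
  evalAdic_X _ _ _ _

theorem ihaEval_sigma (q : T) :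
    (ihlSigma q : Matrix (Fin 2) (Fin 2) (IhlR 𝒪 T G)).map (ihaEval (𝒪 := 𝒪) Sg Ph hSg hPh xs hxs)
      = Sg q := by
  ext i j
  rw [Matrix.map_apply, ihlSigma, ihlMat_apply, map_add, ihlX, ihaEval_X]
  show ihaEval (𝒪 := 𝒪) Sg Ph hSg hPh xs hxs (if i = j then 1 else 0) + (Sg q - 1) i j = Sg q i j
  rw [Matrix.sub_apply, Matrix.one_apply]
  split_ifs <;> simp

theorem ihaEval_phi (q : T) :
    (ihlPhi q : Matrix (Fin 2) (Fin 2) (IhlR 𝒪 T G)).map (ihaEval (𝒪 := 𝒪) Sg Ph hSg hPh xs hxs)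
      = Ph q := by
  ext i j
  rw [Matrix.map_apply, ihlPhi, ihlMat_apply, map_add, ihlX, ihaEval_X]
  show ihaEval (𝒪 := 𝒪) Sg Ph hSg hPh xs hxs (if i = j then 1 else 0) + (Ph q - 1) i j = Ph q i j
  rw [Matrix.sub_apply, Matrix.one_apply]
  split_ifs <;> simp

end Eval

section Conj

variable {Bf : Type*} [CommRing Bf] (β : Matrix (Fin 2) (Fin 2) Bf) (hβ : IsUnit β.det)

/-- conjugation by `β` -/
noncomputable def ihaConj (N : Matrix (Fin 2) (Fin 2) Bf) : Matrix (Fin 2) (Fin 2) Bf :=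
  β⁻¹ * N * β

include hβ

theorem ihaConj_mul_left (N : Matrix (Fin 2) (Fin 2) Bf) : β * ihaConj β N = N * β := by
  rw [ihaConj, ← mul_assoc, ← mul_assoc, Matrix.mul_nonsing_inv β hβ, one_mul]

theorem ihaConj_mul (N₁ N₂ : Matrix (Fin 2) (Fin 2) Bf) :
    ihaConj β N₁ * ihaConj β N₂ = ihaConj β (N₁ * N₂) := by
  rw [ihaConj, ihaConj, ihaConj]
  calc β⁻¹ * N₁ * β * (β⁻¹ * N₂ * β) = β⁻¹ * N₁ * (β * β⁻¹) * N₂ * β := by
        simp only [mul_assoc]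
    _ = β⁻¹ * (N₁ * N₂) * β := by
        rw [Matrix.mul_nonsing_inv β hβ, mul_one]
        simp only [mul_assoc]

theorem ihaConj_trace (N : Matrix (Fin 2) (Fin 2) Bf) : (ihaConj β N).trace = N.trace := by
  rw [ihaConj, Matrix.trace_mul_comm, ← mul_assoc, Matrix.mul_nonsing_inv β hβ, one_mul]

theorem ihaConj_det (N : Matrix (Fin 2) (Fin 2) Bf) : (ihaConj β N).det = N.det := by
  rw [ihaConj, Matrix.det_mul, Matrix.det_mul, mul_comm, ← mul_assoc, ← Matrix.det_mul,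
    Matrix.mul_nonsing_inv β hβ, Matrix.det_one, one_mul]

theorem ihaConj_smul (c : Bf) (N : Matrix (Fin 2) (Fin 2) Bf) :
    ihaConj β (c • N) = c • ihaConj β N := by
  rw [ihaConj, ihaConj, Matrix.mul_smul, Matrix.smul_mul]

end Conj

section CoeffAux

variable {A B σ : Type*} [CommRing A] [CommRing B] {d : ℕ}

theorem iha_coeffExt_C_mul (τ : A →+* Matrix (Fin d) (Fin d) B) (a t : A) (c : B)
    (Y₀ : Matrix (Fin d) (Fin d) B) (h : τ t = c • Y₀) :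
    ihpCoeffExt τ (C (σ := σ) (a * t)) =
      C (σ := σ) c • (C (σ := σ) (R := B)).mapMatrix (τ a * Y₀) := by
  apply ihpCoeffExt_C_dvd
  rw [map_mul, h]
  exact Matrix.mul_smul _ _ _

end CoeffAux

section Theta

variable {𝒪 : Type} [CommRing 𝒪] [IsDomain 𝒪] [IsDiscreteValuationRing 𝒪]
  [IsAdicComplete (maximalIdeal 𝒪) 𝒪] [Finite (ResidueField 𝒪)]

variable (p : ℕ) [Fact p.Prime] (ρbar : ResidualGaloisRep (ResidueField 𝒪))
  (b : Module.Basis (Fin 2) (ResidueField 𝒪) ρbar.V)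
  (X : ∀ ⦃A : Type⦄ [CommRing A] [IsLocalRing A], GaloisRepAdic A → Prop)

/-- the frame variables -/
abbrev IhaFr (Tc : Finset Nat.Primes) : Type := ↥Tc × Fin 2 × Fin 2

/-- `nn v = v` -/
def ihaNN (Tc : Finset Nat.Primes) : ↥Tc → 𝒪 := fun v => (((v : Nat.Primes) : ℕ) : 𝒪)

/-- **the level-`n` patching datum** -/
theorem iha_theta (ϖ : 𝒪)
    (Smin : Finset ℕ) (Tc : Finset Nat.Primes) (φv σv : Nat.Primes → GQ)
    (μ : ↥Tc → Finset 𝒪ˣ) (cs : ↥Tc → 𝒪ˣ) (hcs : ∀ v, (cs v : 𝒪) ^ 2 = 1)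
    (hcsρ : ∀ v : ↥Tc, ρbar.ρ (φv v) = residue 𝒪 (cs v : 𝒪) • 1)
    (hσρ : ∀ v : ↥Tc, ρbar.ρ (σv v) = 1)
    (q₀ : ↥Tc) (r d : ℕ) (qv : Fin r → ℕ) (n : ℕ)
    (hG : IhaG1At p ρbar b X Smin Tc φv σv r qv)
    (hlev : IhaLevel p ρbar b X Smin Tc φv σv ϖ μ cs q₀ r d qv n) :
    ∃ Θ : IhlR 𝒪 ↥Tc (Fin (r + Tc.card)) →+*
        Matrix (Fin d) (Fin d) (IhaB 𝒪 r p n (IhaFr Tc)),
      (∀ x ∈ ihlJProd (G := Fin (r + Tc.card)) μ (ihaNN Tc), Θ x = 0) ∧
      Θ (C ϖ) = Matrix.scalar (Fin d) (ihaPi 𝒪 r p n (IhaFr Tc) (C (C ϖ))) ∧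
      (∀ s : IhaS 𝒪 r (IhaFr Tc), ∃ ρ, Θ ρ = Matrix.scalar (Fin d) (ihaPi 𝒪 r p n (IhaFr Tc) s)) ∧
      ∃ Y : Matrix (Fin d) (Fin d) (IhaB 𝒪 r p n (IhaFr Tc)),
        Θ (ihlT (ihaNN Tc) q₀) = ihaPi 𝒪 r p n (IhaFr Tc) (C (C ϖ)) • Y := by
  classical
  obtain ⟨A, iA1, iA2, iA3, iA4, iA5, iA6, rA, hcts, τ, hres, hstrict, htype, htr, hprod, hcommT,
    hdetσ, hdetφ, hscal, Y₀, hY₀⟩ := hlev
  -- the frame ring
  set Fr : Type := IhgFrame A ↥Tc with hFr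
  haveI : IsAdicComplete (maximalIdeal Fr) Fr := isAdicComplete_maximalIdeal
  have hlocC : IsLocalHom (C (σ := IhaFr Tc) (R := A)) := isLocalHom_C
  haveI hlocFr : IsLocalHom (algebraMap 𝒪 Fr) := by
    refine ⟨fun a ha => ?_⟩
    rw [MvPowerSeries.algebraMap_apply] at ha
    exact iA6.map_nonunit a (hlocC.map_nonunit _ ha)
  have hresFr : Function.Surjective (residue Fr ∘ algebraMap 𝒪 Fr) := by
    intro y
    obtain ⟨a₀, ha₀⟩ := residue_comp_algebraMap_surjective (σ := IhaFr Tc) (R := A) y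
    obtain ⟨c, hc⟩ := hres (residue A a₀)
    refine ⟨c, ?_⟩
    rw [Function.comp_apply] at ha₀ hc ⊢
    rw [← ha₀, MvPowerSeries.algebraMap_apply, ← MvPowerSeries.c_eq_algebraMap,
      ← sub_eq_zero, ← map_sub, ← map_sub, residue_eq_zero_iff]
    refine ihg_C_mem_maximalIdeal ?_
    rw [← residue_eq_zero_iff, map_sub, hc, sub_self]
  -- the framed matrices
  set β : ↥Tc → Matrix (Fin 2) (Fin 2) Fr := fun v => ihgBeta A ↥Tc v with hβdef
  have hβ : ∀ v, IsUnit (β v).det := fun v => ihg_isUnit_det_beta v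
  set Nsg : ↥Tc → Matrix (Fin 2) (Fin 2) Fr :=
    fun v => (rA (σv v)).map (C (σ := IhaFr Tc) (R := A)) with hNsg
  set Nph : ↥Tc → Matrix (Fin 2) (Fin 2) Fr :=
    fun v => (rA (φv v)).map (C (σ := IhaFr Tc) (R := A)) with hNph
  set cF : ↥Tc → Fr := fun v => algebraMap 𝒪 Fr (cs v : 𝒪) with hcF
  set cFi : ↥Tc → Fr := fun v => algebraMap 𝒪 Fr ((cs v)⁻¹ : 𝒪ˣ) with hcFi
  have hcc : ∀ v, cF v * cFi v = 1 := fun v => by
    rw [hcF, hcFi, ← map_mul, ← Units.val_mul, mul_inv_cancel, Units.val_one, map_one]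
  set Sg : ↥Tc → Matrix (Fin 2) (Fin 2) Fr := fun v => ihaConj (β v) (Nsg v) with hSgdef
  set Ph : ↥Tc → Matrix (Fin 2) (Fin 2) Fr := fun v => cFi v • ihaConj (β v) (Nph v) with hPhdef
  -- entries
  have hentC : ∀ (Mx : Matrix (Fin 2) (Fin 2) A) (ct : 𝒪),
      IhgEntriesIn (maximalIdeal A) (Mx - algebraMap 𝒪 A ct • (1 : Matrix (Fin 2) (Fin 2) A)) →
      IhgEntriesIn (maximalIdeal Fr) (Mx.map (C (σ := IhaFr Tc) (R := A)) -
        algebraMap 𝒪 Fr ct • (1 : Matrix (Fin 2) (Fin 2) Fr)) := by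
    intro Mx ct hM i j
    have : (Mx.map (C (σ := IhaFr Tc) (R := A)) -
        algebraMap 𝒪 Fr ct • (1 : Matrix (Fin 2) (Fin 2) Fr)) i j =
        C (σ := IhaFr Tc) (R := A)
          ((Mx - algebraMap 𝒪 A ct • (1 : Matrix (Fin 2) (Fin 2) A)) i j) := by
      rw [Matrix.sub_apply, Matrix.sub_apply, Matrix.smul_apply, Matrix.smul_apply,
        Matrix.map_apply, map_sub, smul_eq_mul, smul_eq_mul, map_mul,
        MvPowerSeries.algebraMap_apply]
      congr 2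
      by_cases hij : i = j
      · rw [hij, Matrix.one_apply_eq, Matrix.one_apply_eq, map_one]
      · rw [Matrix.one_apply_ne hij, Matrix.one_apply_ne hij, map_zero]
    rw [this]
    exact ihg_C_mem_maximalIdeal (hM i j)
  have hSg : ∀ v i j, (Sg v - 1) i j ∈ maximalIdeal Fr := by
    intro v
    have h1 : IhgEntriesIn (maximalIdeal A)
        (rA (σv v) - algebraMap 𝒪 A 1 • (1 : Matrix (Fin 2) (Fin 2) A)) :=
      ihg_entries_of_strict b rA hstrict (cbar := 1) (by rw [hσρ v, one_smul]) 1 (map_one _)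
    have h2 := hentC _ _ h1
    have h3 := (ihg_conj_entries (hβ v) (ihaConj_mul_left (β v) (hβ v) (Nsg v))
      (algebraMap 𝒪 Fr 1) (maximalIdeal Fr)).1 h2
    intro i j
    have h4 := h3 i j
    rwa [map_one, one_smul] at h4
  have hPh : ∀ v i j, (Ph v - 1) i j ∈ maximalIdeal Fr := by
    intro v
    have h1 : IhgEntriesIn (maximalIdeal A)
        (rA (φv v) - algebraMap 𝒪 A (cs v : 𝒪) • (1 : Matrix (Fin 2) (Fin 2) A)) :=
      ihg_entries_of_strict b rA hstrict (hcsρ v) (cs v : 𝒪) rfl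
    have h2 := hentC _ _ h1
    have h3 := (ihg_conj_entries (hβ v) (ihaConj_mul_left (β v) (hβ v) (Nph v))
      (algebraMap 𝒪 Fr (cs v : 𝒪)) (maximalIdeal Fr)).1 h2
    intro i j
    have h4 : (Ph v - 1) i j = cFi v * (ihaConj (β v) (Nph v) -
        algebraMap 𝒪 Fr (cs v : 𝒪) • (1 : Matrix (Fin 2) (Fin 2) Fr)) i j := by
      have hcc' : cFi v * algebraMap 𝒪 Fr (cs v : 𝒪) = 1 := by rw [mul_comm]; exact hcc v
      show (cFi v • ihaConj (β v) (Nph v) - 1) i j = _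
      rw [Matrix.sub_apply, Matrix.smul_apply, Matrix.sub_apply, Matrix.smul_apply, smul_eq_mul,
        smul_eq_mul, mul_sub, ← mul_assoc, hcc', one_mul]
    rw [h4]
    exact Ideal.mul_mem_left _ _ (h3 i j)
  -- the local ring `Λ` and its algebra structure on the frame ring
  set Λ : Type := IhlR 𝒪 ↥Tc Empty with hΛ
  haveI : IsAdicComplete (maximalIdeal Λ) Λ := isAdicComplete_maximalIdeal
  set xs0 : Empty → Fr := fun e => e.elim with hxs0def
  have hxs0 : ∀ e, xs0 e ∈ maximalIdeal Fr := fun e => e.elim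
  set πΛ : Λ →ₐ[𝒪] Fr := ihaEval (𝒪 := 𝒪) (G := Empty) Sg Ph hSg hPh xs0 hxs0 with hπΛ
  letI algΛ : Algebra Λ Fr := (πΛ : Λ →+* Fr).toAlgebra
  have halgΛ : ∀ z : Λ, algebraMap Λ Fr z = πΛ z := fun z => rfl
  haveI : IsScalarTower 𝒪 Λ Fr := IsScalarTower.of_algebraMap_eq fun z => by
    rw [halgΛ, AlgHom.commutes]
  haveI : IsLocalHom (algebraMap Λ Fr) :=
    isLocalHom_evalAdic (𝒪 := 𝒪) (ihlEvalVal Sg Ph xs0)
      (ihlEvalVal_mem Sg Ph hSg hPh xs0 hxs0)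
  -- the matrices over `Λ`
  have hSgΛ : ∀ v, (ihlSigma v : Matrix (Fin 2) (Fin 2) Λ).map (algebraMap Λ Fr) = Sg v :=
    fun v => ihaEval_sigma Sg Ph hSg hPh xs0 hxs0 v
  have hPhΛ : ∀ v, (ihlPhi v : Matrix (Fin 2) (Fin 2) Λ).map (algebraMap Λ Fr) = Ph v :=
    fun v => ihaEval_phi Sg Ph hSg hPh xs0 hxs0 v
  set g : ℕ := r + Tc.card with hg
  obtain ⟨γ, hγ⟩ := hG A hres rA hcts hstrict htype htr Λ
    (fun v => algebraMap 𝒪 Λ (cs v : 𝒪) • ihlPhi v) (fun v => ihlSigma v)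
    (by
      intro v
      have h1 : ((algebraMap 𝒪 Λ (cs v : 𝒪) • ihlPhi v : Matrix (Fin 2) (Fin 2) Λ)).map
          (algebraMap Λ Fr) = cF v • Ph v := by
        rw [← hPhΛ v]
        ext i j
        simp only [Matrix.map_apply, Matrix.smul_apply, smul_eq_mul, map_mul]
        rw [← IsScalarTower.algebraMap_apply]
      rw [h1]
      show β v * (cF v • (cFi v • ihaConj (β v) (Nph v))) = Nph v * β v
      rw [smul_smul, hcc v, one_smul]
      exact ihaConj_mul_left (β v) (hβ v) (Nph v))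
    (by
      intro v
      rw [hSgΛ v]
      exact ihaConj_mul_left (β v) (hβ v) (Nsg v))
  -- the point `π : R → Fr`
  have hγloc : IsLocalHom (γ : MvPowerSeries (Fin g) Λ →+* Fr) :=
    Function.Surjective.isLocalHom _ hγ
  have hXP : ∀ i : Fin g, (MvPowerSeries.X i : MvPowerSeries (Fin g) Λ) ∈
      maximalIdeal (MvPowerSeries (Fin g) Λ) := by
    intro i
    rw [maximalIdeal_eq_idealMX]
    exact span_X_le_idealMX _ (Ideal.subset_span ⟨i, rfl⟩)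
  set xs : Fin g → Fr := fun i => γ (MvPowerSeries.X i) with hxsdef
  have hxs : ∀ i, xs i ∈ maximalIdeal Fr := by
    intro i
    rw [mem_maximalIdeal, mem_nonunits_iff]
    intro hu
    exact (mem_nonunits_iff.mp ((mem_maximalIdeal _).mp (hXP i)))
      (hγloc.map_nonunit (MvPowerSeries.X i) hu)
  set π : IhlR 𝒪 ↥Tc (Fin g) →ₐ[𝒪] Fr := ihaEval (𝒪 := 𝒪) (G := Fin g) Sg Ph hSg hPh xs hxs
    with hπ
  have hπSg : ∀ v, (ihlSigma v : Matrix (Fin 2) (Fin 2) (IhlR 𝒪 ↥Tc (Fin g))).map π = Sg v :=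
    fun v => ihaEval_sigma Sg Ph hSg hPh xs hxs v
  have hπPh : ∀ v, (ihlPhi v : Matrix (Fin 2) (Fin 2) (IhlR 𝒪 ↥Tc (Fin g))).map π = Ph v :=
    fun v => ihaEval_phi Sg Ph hSg hPh xs hxs v
  have hπsurj : Function.Surjective π := by
    have hfg : (maximalIdeal Fr).FG := IsNoetherian.noetherian _
    refine evalAdic_surjective (𝒪 := 𝒪) (ihlEvalVal Sg Ph xs)
      (ihlEvalVal_mem Sg Ph hSg hPh xs hxs) hfg hresFr ?_
    set I : Ideal Fr := (maximalIdeal 𝒪).map (algebraMap 𝒪 Fr) ⊔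
      Ideal.span (Set.range (ihlEvalVal Sg Ph xs)) with hI
    refine le_trans ?_ le_sup_left
    -- the image of `𝔪_Λ`
    have hI1 : (maximalIdeal Λ).map (algebraMap Λ Fr) ≤ I := by
      rw [maximalIdeal_eq_idealMX]
      unfold idealMX
      rw [Ideal.map_sup, Ideal.map_map, Ideal.map_span]
      refine sup_le ?_ ?_
      · have h1 : (algebraMap Λ Fr).comp (C (σ := IhlIdx ↥Tc Empty) (R := 𝒪))
            = algebraMap 𝒪 Fr := by
          refine RingHom.ext fun c => ?_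
          show πΛ (C (σ := IhlIdx ↥Tc Empty) (R := 𝒪) c) = _
          rw [MvPowerSeries.c_eq_algebraMap, AlgHom.commutes]
        rw [h1]
        exact le_sup_left
      · refine le_trans (Ideal.span_le.mpr ?_) le_sup_right
        rintro _ ⟨_, ⟨idx, rfl⟩, rfl⟩
        refine Ideal.subset_span ?_
        rcases idx with ⟨q, bb, i, j⟩ | e
        · refine ⟨Sum.inl (q, bb, i, j), ?_⟩
          show _ = πΛ (MvPowerSeries.X _)
          rw [hπΛ, ihaEval_X]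
          cases bb <;> rfl
        · exact e.elim
    intro y hy
    obtain ⟨z, rfl⟩ := hγ y
    have hz : z ∈ maximalIdeal (MvPowerSeries (Fin g) Λ) := by
      rw [mem_maximalIdeal, mem_nonunits_iff]
      intro hu
      exact (mem_nonunits_iff.mp ((mem_maximalIdeal _).mp hy)) (hu.map γ)
    have hmap : (maximalIdeal (MvPowerSeries (Fin g) Λ)).map
        (γ : MvPowerSeries (Fin g) Λ →+* Fr) ≤ I := by
      rw [maximalIdeal_eq_idealMX]
      unfold idealMX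
      rw [Ideal.map_sup, Ideal.map_map, Ideal.map_span]
      refine sup_le ?_ ?_
      · have h1 : (γ : MvPowerSeries (Fin g) Λ →+* Fr).comp (C (σ := Fin g) (R := Λ))
            = algebraMap Λ Fr := by
          refine RingHom.ext fun c => ?_
          show γ (C (σ := Fin g) (R := Λ) c) = _
          rw [MvPowerSeries.c_eq_algebraMap, AlgHom.commutes]
        rw [h1]
        exact hI1
      · refine le_trans (Ideal.span_le.mpr ?_) le_sup_right
        rintro _ ⟨_, ⟨i, rfl⟩, rfl⟩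
        exact Ideal.subset_span ⟨Sum.inr i, rfl⟩
    exact hmap (Ideal.mem_map_of_mem _ hz)
  -- facts about `C`
  have hπC : ∀ c : 𝒪, π (C (σ := IhlIdx ↥Tc (Fin g)) (R := 𝒪) c)
      = C (σ := IhaFr Tc) (R := A) (algebraMap 𝒪 A c) := by
    intro c
    rw [MvPowerSeries.c_eq_algebraMap, AlgHom.commutes, MvPowerSeries.algebraMap_apply]
  have htrC : ∀ Mx : Matrix (Fin 2) (Fin 2) A,
      (Mx.map (C (σ := IhaFr Tc) (R := A))).trace = C (σ := IhaFr Tc) (R := A) Mx.trace := by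
    intro Mx
    rw [Matrix.trace_fin_two, Matrix.trace_fin_two, map_add]
    rfl
  have hdetC : ∀ Mx : Matrix (Fin 2) (Fin 2) A,
      (Mx.map (C (σ := IhaFr Tc) (R := A))).det = C (σ := IhaFr Tc) (R := A) Mx.det := by
    intro Mx
    rw [Matrix.det_fin_two, Matrix.det_fin_two, map_sub, map_mul, map_mul]
    rfl
  have hmk : ∀ c : 𝒪, Ideal.Quotient.mk (ihaIdeal 𝒪 r p n) (C (σ := Fin r) (R := 𝒪) c)
      = algebraMap 𝒪 (IhaS₀ 𝒪 r ⧸ ihaIdeal 𝒪 r p n) c := fun c => rfl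
  have hτalg : ∀ c : 𝒪, τ (algebraMap 𝒪 A c) = Matrix.scalar (Fin d)
      (algebraMap 𝒪 (IhaS₀ 𝒪 r ⧸ ihaIdeal 𝒪 r p n) c) := by
    intro c
    rw [AlgHom.commutes, Matrix.algebraMap_eq_diagonal]
    rfl
  -- the kernel
  have hker : ihlJProd (G := Fin g) μ (ihaNN Tc) ≤
      RingHom.ker (π : IhlR 𝒪 ↥Tc (Fin g) →+* Fr) := by
    refine ihl_JProd_le_ker (π : IhlR 𝒪 ↥Tc (Fin g) →+* Fr) Sg Ph hπSg hπPh μ (ihaNN Tc)
      ?_ ?_ ?_ ?_
    · intro v
      have h1 : ∀ ζ ∈ μ v, ((Sg v).trace - (π : IhlR 𝒪 ↥Tc (Fin g) →+* Fr)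
          (C ((ζ : 𝒪) + ((ζ⁻¹ : 𝒪ˣ) : 𝒪)))) = C (σ := IhaFr Tc) (R := A)
            ((rA (σv v)).trace - algebraMap 𝒪 A ((ζ : 𝒪) + ((ζ⁻¹ : 𝒪ˣ) : 𝒪))) := by
        intro ζ _
        show (ihaConj (β v) (Nsg v)).trace - π (C _) = _
        rw [ihaConj_trace (β v) (hβ v), hπC, map_sub]
        show (Nsg v).trace - _ = _
        rw [htrC]
      rw [Finset.prod_congr rfl h1, ← map_prod, hprod v, map_zero]
    · intro v
      show (ihaConj (β v) (Nsg v)).det = 1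
      rw [ihaConj_det (β v) (hβ v)]
      show ((rA (σv v)).map (C (σ := IhaFr Tc) (R := A))).det = 1
      rw [hdetC, hdetσ v, map_one]
    · intro v
      show (cFi v • ihaConj (β v) (Nph v)).det = π (C (ihaNN Tc v))
      rw [Matrix.det_smul, ihaConj_det (β v) (hβ v), Fintype.card_fin, hπC]
      show cFi v ^ 2 * ((rA (φv v)).map (C (σ := IhaFr Tc) (R := A))).det = _
      rw [hdetC, hdetφ v]
      have h1 : cFi v ^ 2 = 1 := by
        have h2 : (((cs v)⁻¹ : 𝒪ˣ) : 𝒪) ^ 2 = 1 := by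
          have h3 : ((cs v) ^ 2 : 𝒪ˣ) = 1 := Units.ext (by rw [Units.val_pow_eq_pow_val, hcs v]; rfl)
          have h4 : ((cs v)⁻¹ ^ 2 : 𝒪ˣ) = 1 := by rw [inv_pow, h3, inv_one]
          rw [← Units.val_pow_eq_pow_val, h4]; rfl
        rw [hcFi]
        show (algebraMap 𝒪 Fr (((cs v)⁻¹ : 𝒪ˣ) : 𝒪)) ^ 2 = 1
        rw [← map_pow, h2, map_one]
      rw [h1, one_mul]
      congr 1
      show _ = algebraMap 𝒪 A ((((v : Nat.Primes) : ℕ) : 𝒪))
      rw [map_natCast]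
    · intro v
      show (cFi v • ihaConj (β v) (Nph v)) * ihaConj (β v) (Nsg v)
        = ihaConj (β v) (Nsg v) * (cFi v • ihaConj (β v) (Nph v))
      rw [Matrix.smul_mul, Matrix.mul_smul, ihaConj_mul (β v) (hβ v), ihaConj_mul (β v) (hβ v)]
      have h1 : Nph v * Nsg v = Nsg v * Nph v := by
        show (rA (φv v)).map (C (σ := IhaFr Tc) (R := A)) * (rA (σv v)).map C
          = (rA (σv v)).map C * (rA (φv v)).map C
        rw [← Matrix.map_mul, ← Matrix.map_mul, hcommT v]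
      rw [h1]
  set Θ : IhlR 𝒪 ↥Tc (Fin g) →+* Matrix (Fin d) (Fin d) (IhaB 𝒪 r p n (IhaFr Tc)) :=
    (ihpCoeffExt (σ := IhaFr Tc) (τ : A →+* Matrix (Fin d) (Fin d) _)).comp
      (π : IhlR 𝒪 ↥Tc (Fin g) →+* Fr) with hΘ
  have hΘapp : ∀ x, Θ x = ihpCoeffExt (σ := IhaFr Tc) (τ : A →+* Matrix (Fin d) (Fin d) _) (π x) :=
    fun x => rfl
  refine ⟨Θ, ?_, ?_, ?_, ?_⟩
  · intro x hx
    have h1 : π x = 0 := hker hx
    rw [hΘapp, h1, map_zero]
  · rw [hΘapp, hπC]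
    refine ihpCoeffExt_eq_scalar _ _ _ fun x => ?_
    rw [ihaPi, coeff_map, coeff_C, coeff_C]
    by_cases hx : x = 0
    · rw [if_pos hx, if_pos hx, hmk]
      exact hτalg ϖ
    · rw [if_neg hx, if_neg hx, map_zero, map_zero, map_zero]
  · intro s
    choose t ht using fun x => hscal (coeff x s)
    obtain ⟨ρ, hρ⟩ := hπsurj (show Fr from fun x => t x)
    refine ⟨ρ, ?_⟩
    rw [hΘapp, hρ]
    refine ihpCoeffExt_eq_scalar _ _ _ fun x => ?_
    rw [ihaPi, coeff_map]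
    exact ht x
  · -- (e′)
    have h1 : π (ihlT (ihaNN Tc) q₀) = C (σ := IhaFr Tc) (R := A)
        (algebraMap 𝒪 A (((cs q₀)⁻¹ : 𝒪ˣ) : 𝒪) * ((rA (φv q₀)).trace -
          algebraMap 𝒪 A ((cs q₀ : 𝒪) * (1 + (((q₀ : Nat.Primes) : ℕ) : 𝒪))))) := by
      have h2 := ihl_map_T (π : IhlR 𝒪 ↥Tc (Fin g) →+* Fr) Ph hπPh (ihaNN Tc) q₀
      have h3 : (Ph q₀).trace = cFi q₀ * C (σ := IhaFr Tc) (R := A) (rA (φv q₀)).trace := by
        show (cFi q₀ • ihaConj (β q₀) (Nph q₀)).trace = _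
        rw [Matrix.trace_smul, ihaConj_trace (β q₀) (hβ q₀), smul_eq_mul]
        show _ * ((rA (φv q₀)).map (C (σ := IhaFr Tc) (R := A))).trace = _
        rw [htrC]
      have h4 : (π : IhlR 𝒪 ↥Tc (Fin g) →+* Fr) (ihlT (ihaNN Tc) q₀) = π (ihlT (ihaNN Tc) q₀) := rfl
      rw [← h4, h2, h3]
      show _ - π (C _) = _
      rw [hπC, hcFi]
      show algebraMap 𝒪 Fr (((cs q₀)⁻¹ : 𝒪ˣ) : 𝒪) * _ - _ = _
      rw [MvPowerSeries.algebraMap_apply, ← map_mul, ← map_sub]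
      congr 1
      rw [mul_sub, ← map_mul, ← mul_assoc, ← Units.val_mul, inv_mul_cancel, Units.val_one, one_mul]
      rfl
    refine ⟨(C (σ := IhaFr Tc) (R := IhaS₀ 𝒪 r ⧸ ihaIdeal 𝒪 r p n)).mapMatrix
      (τ (algebraMap 𝒪 A (((cs q₀)⁻¹ : 𝒪ˣ) : 𝒪)) * Y₀), ?_⟩
    rw [hΘapp, h1]
    have h6 := iha_coeffExt_C_mul (σ := IhaFr Tc)
      (τ : A →+* Matrix (Fin d) (Fin d) (IhaS₀ 𝒪 r ⧸ ihaIdeal 𝒪 r p n))
      (algebraMap 𝒪 A (((cs q₀)⁻¹ : 𝒪ˣ) : 𝒪)) _ _ Y₀ hY₀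
    rw [h6, ihaPi, map_C, hmk]
    rfl

end Theta

end Fermat.Agent.Ihara
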