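/-
IHARA / Asm (helper2), part 4: **the final assembly**
`[G1] + [L] + [P] + level data ⟹ False`.

* `iha_main` : `IhaG1 r` + (`IhaLevel` for all admissible `qv`, `n`) `⟹ False`.

The patching rings: `R = IhlR 𝒪 Tc (Fin (r + |Tc|))` (helper6's universal ring of `[L]`),
`S = (𝒪⟦A_1..A_r⟧)⟦Z_{v,i,j}⟧`, `B n = (𝒪⟦A⟧ ⧸ 𝔞_n)⟦Z⟧`, `Θ n` from `iha_theta`; the master theorem
`ihp_master_matrix'` of `[P]` and the local computation `ihl_hL` of `[L]` give the contradiction.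
-/
import Mathlib
import Fermat.Agent.Lib.Ihara.Asm.Theta

set_option autoImplicit false
set_option linter.unusedSectionVars false
set_option linter.unusedVariables false
set_option linter.style.haveILetI false
set_option maxHeartbeats 1000000

open Fermat.Agent.S53Lib Fermat.Agent.TW IsLocalRing groupCohomology ExtCitation CategoryTheory
  GaloisRep MvPowerSeries

namespace Fermat.Agent.Ihara

section

variable {𝒪 : Type} [CommRing 𝒪] [IsDomain 𝒪] [IsDiscreteValuationRing 𝒪]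
  [IsAdicComplete (maximalIdeal 𝒪) 𝒪] [Finite (ResidueField 𝒪)]

variable (p : ℕ) [Fact p.Prime] (ρbar : ResidualGaloisRep (ResidueField 𝒪))
  (b : Module.Basis (Fin 2) (ResidueField 𝒪) ρbar.V)
  (X : ∀ ⦃A : Type⦄ [CommRing A] [IsLocalRing A], GaloisRepAdic A → Prop)

/-- **THE FINAL ASSEMBLY.**  `[G1]` for `r` TW primes, the level data for every admissible TW set,
`[L]` and `[P]` give a contradiction. -/
theorem iha_main (hp2 : IsUnit (2 : 𝒪)) (ϖ : 𝒪) (hϖ : maximalIdeal 𝒪 = Ideal.span {ϖ})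
    (hϖ0 : ϖ ≠ 0) (hp𝒪 : (p : 𝒪) ∈ maximalIdeal 𝒪)
    (S Smin : Finset ℕ) (Tc : Finset Nat.Primes) (φv σv : Nat.Primes → GQ)
    (μ : ↥Tc → Finset 𝒪ˣ) (hμ1 : ∀ v, ∀ ζ ∈ μ v, (ζ : 𝒪) - 1 ∈ maximalIdeal 𝒪)
    (hμ2 : ∀ v, ∀ ζ ∈ μ v, (ζ : 𝒪) ^ 2 ≠ 1)
    (cs : ↥Tc → 𝒪ˣ) (hcs : ∀ v, (cs v : 𝒪) ^ 2 = 1)
    (hcsρ : ∀ v : ↥Tc, ρbar.ρ (φv v) = residue 𝒪 (cs v : 𝒪) • 1)
    (hσρ : ∀ v : ↥Tc, ρbar.ρ (σv v) = 1)
    (hTc1 : ∀ v : ↥Tc, ((((v : Nat.Primes) : ℕ) : 𝒪) - 1) ∈ maximalIdeal 𝒪)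
    (q₀ : ↥Tc) (r d : ℕ) (hd : 0 < d)
    (hG1 : IhaG1 p ρbar b X S Smin Tc φv σv r)
    (hlevel : ∀ (n : ℕ) (qv : Fin r → ℕ), Function.Injective qv →
      (∀ i, (qv i).Prime ∧ qv i ∉ S ∧ p ^ (n + 1) ∣ qv i - 1) →
      (∀ i, IsTWPrime ρbar (qv i)) →
      IhaLevel p ρbar b X Smin Tc φv σv ϖ μ cs q₀ r d qv n) : False := by
  classical
  set g : ℕ := r + Tc.card with hg
  choose qv hqinj hqv hqTW hG using hG1
  have hth := fun n => iha_theta p ρbar b X ϖ Smin Tc φv σv μ cs hcs hcsρ hσρ q₀ r d (qv n) n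
    (hG n) (hlevel n (qv n) (hqinj n) (hqv n) (hqTW n))
  choose Θ hJ hϖΘ hsc ht using hth
  haveI : IsDomain (IhaS₀ 𝒪 r) := NoZeroDivisors.to_isDomain _
  haveI : IsDomain (IhaS 𝒪 r (IhaFr Tc)) := NoZeroDivisors.to_isDomain _
  haveI : IsAdicComplete (maximalIdeal (IhlR 𝒪 ↥Tc (Fin g))) (IhlR 𝒪 ↥Tc (Fin g)) :=
    isAdicComplete_maximalIdeal
  have hRfin : ∀ N, Finite (IhlR 𝒪 ↥Tc (Fin g) ⧸ maximalIdeal (IhlR 𝒪 ↥Tc (Fin g)) ^ N) :=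
    fun N => iha_finite_quot_pow N
  have hϖS : (C (σ := IhaFr Tc) (R := IhaS₀ 𝒪 r) (C (σ := Fin r) (R := 𝒪) ϖ)) ≠ 0 := by
    intro h
    have h1 := congrArg (fun f => coeff (0 : Fin r →₀ ℕ) (coeff (0 : IhaFr Tc →₀ ℕ) f)) h
    simp only [coeff_zero_C, map_zero] at h1
    exact hϖ0 h1
  have hdim : ((1 + 3 * Nat.card ↥Tc + Nat.card (Fin g) : ℕ) : WithBot ℕ∞) ≤
      ringKrullDim (IhaS 𝒪 r (IhaFr Tc)) := by
    refine le_trans ?_ (iha_ringKrullDim_S 𝒪 r (IhaFr Tc))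
    have h1 : Nat.card (IhaFr Tc) = Nat.card ↥Tc * 4 := by
      rw [Nat.card_prod, Nat.card_prod, Nat.card_fin]
    have h2 : Nat.card ↥Tc = Tc.card := by
      rw [Nat.card_eq_fintype_card, Fintype.card_coe]
    have h3 : Nat.card (Fin g) = g := Nat.card_fin g
    rw [h1, h2, h3, hg]
    exact_mod_cast (by omega : 1 + 3 * Tc.card + (r + Tc.card) ≤ 1 + r + Tc.card * 4)
  exact ihp_master_matrix' (R := IhlR 𝒪 ↥Tc (Fin g)) (S := IhaS 𝒪 r (IhaFr Tc))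
    hRfin (iha_finite_S 𝒪 r (IhaFr Tc)) hd
    (C (σ := IhaFr Tc) (R := IhaS₀ 𝒪 r) (C (σ := Fin r) (R := 𝒪) ϖ)) hϖS
    (C ϖ) (ihlT (ihaNN Tc) q₀) (ihlJProd (G := Fin g) μ (ihaNN Tc))
    (B := fun n => IhaB 𝒪 r p n (IhaFr Tc))
    (fun n => ihaPi 𝒪 r p n (IhaFr Tc)) (fun n => ihaPi_surjective 𝒪 r p n (IhaFr Tc))
    (ihaPi_ker_le 𝒪 r (IhaFr Tc) hp𝒪) Θ hJ hϖΘ hsc ht
    (ihl_hL ϖ hϖ hϖ0 hp2 μ hμ1 hμ2 (ihaNN Tc) hTc1 q₀ hdim)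

end

end Fermat.Agent.Ihara
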