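/-
IHARA / Asm (helper2), part 5: **(W3) the top-level wiring of case (C)**:

  `iha_ihara : IhaModular → IhwIhara`.

`IhaModular` is THE TARGET OF THE MODULAR SIDE: for the Frey package `P`, a minimal conductor level
`N` (prime to `p`) all of whose odd primes are of type (C), and a coefficient ring `𝒪` (complete
DVR of characteristic `0`, finite residue field `k ⊇ 𝔽_p` in which all elements of `𝔽_p` are
squares) with the auxiliary data (`Tc` = the odd primes of `N`, Frobenius lifts `φv`, tame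
generators `σv`, the roots of unity `μ v`, the signs `cs v`, the distinguished prime `q₀`):
a finite set `S` of primes and a rank `d > 0` such that for every admissible Taylor–Wiles set `qv`
(of any size `r`, any level `n`, avoiding `S`) there is a Hecke-module datum `IhaHecke … qv n`.

The proof of `iha_ihara` puts together helper9's `[RB]` (`ihrRep`, `ihr_habs`, `ihr_hTW`, `ihr_hsplit`,
`ihr_hdet`, `ihr_hmin`, `ihr_sign`, `ihr_inertia_eq_one`), `[O]` (`iho_exists`) and `[G1]`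
(`ihg_main`, `ihg_exists_frob_gen`), helper5's `ihta_exists_mu`, `iha_level_of_hecke` and
`iha_main`.
-/
import Mathlib
import Fermat.Agent.Lib.Ihara.Asm.Main
import Fermat.Agent.Lib.Ihara.Asm.Level
import Fermat.Agent.Lib.Ihara.G1.Final
import Fermat.Agent.Lib.Ihara.Rb.Sign
import Fermat.Agent.Lib.Ihara.O.Main
import Fermat.Agent.Lib.Ihara.Ta.Mu
import Fermat.Agent.Lib.Ihara.W.Top

set_option autoImplicit false
set_option linter.unusedSectionVars false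
set_option linter.unusedVariables false
set_option linter.style.haveILetI false
set_option maxHeartbeats 1000000

open Fermat.Agent.S53Lib Fermat.Agent.TW IsLocalRing GaloisRep ExtCitation
open WeierstrassCurve WeierstrassCurve.Affine WeierstrassCurve.Affine.Point

namespace Fermat.Agent.Ihara

local notation "Qb" => AlgebraicClosure ℚ

/-- **THE TARGET OF THE MODULAR SIDE** (case (C) of S43) -/
def IhaModular : Prop :=
  ∀ (P : FreyPackage) [Fact P.p.Prime] (N : ℕ), P.IsConductorLevel N → ¬ P.p ∣ N →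
    GaloisRepIsIrreducible (K := Qb) ℚ P.freyCurve P.p →
    P.ModularRepOfLevel N →
    (∀ M : ℕ, M ∣ N → M ≠ N → ¬ P.ModularRepOfLevel M) →
    (∀ r : ℕ, r.Prime → r ∣ N → r ≠ 2 → IhwCPrime P r) →
    ∀ (𝒪 : Type) [CommRing 𝒪] [IsDomain 𝒪] [IsDiscreteValuationRing 𝒪]
      [IsAdicComplete (maximalIdeal 𝒪) 𝒪] [Finite (ResidueField 𝒪)] [CharZero 𝒪]
      [Algebra (ZMod P.p) (ResidueField 𝒪)],
      (P.p : 𝒪) ∈ maximalIdeal 𝒪 →
      (∀ a : ZMod P.p, IsSquare (algebraMap (ZMod P.p) (ResidueField 𝒪) a)) →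
      ∀ (b : Module.Basis (Fin 2) (ResidueField 𝒪) (ihrRep P (ResidueField 𝒪)).V)
        (Tc : Finset Nat.Primes), (∀ v : Nat.Primes, v ∈ Tc ↔ (v : ℕ) ∣ N ∧ (v : ℕ) ≠ 2) →
      ∀ (φv σv : Nat.Primes → GQ),
        (∀ v ∈ Tc, (primeLocalPlace v).IsFrobeniusAt (φv v) (v : ℕ)) →
        (∀ v ∈ Tc, IhgGen P.p (primeLocalPlace v) (σv v)) →
      ∀ (ϖ : 𝒪), maximalIdeal 𝒪 = Ideal.span {ϖ} →
      ∀ (μ : ↥Tc → Finset 𝒪ˣ),
        (∀ v : ↥Tc, ∃ a u : ℕ, ((v : Nat.Primes) : ℕ) = 1 + P.p ^ a * u ∧ ¬ P.p ∣ u ∧ 0 < a ∧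
          (Polynomial.X ^ (P.p ^ a) - 1 : Polynomial 𝒪) =
            (Polynomial.X - 1) * ∏ ζ ∈ μ v, (Polynomial.X - Polynomial.C (ζ : 𝒪)) ∧
          (∀ ζ ∈ μ v, ζ ^ (P.p ^ a) = 1 ∧ ζ ≠ 1) ∧
          ∃ ζ ∈ μ v, IsPrimitiveRoot (ζ : 𝒪) (P.p ^ a)) →
      ∀ (cs : ↥Tc → 𝒪ˣ), (∀ v, (cs v : 𝒪) ^ 2 = 1) →
        (∀ v : ↥Tc, (ihrRep P (ResidueField 𝒪)).ρ (φv v) = residue 𝒪 (cs v : 𝒪) • 1) →
      ∀ q₀ : ↥Tc,
      ∃ S : Finset ℕ, ({2, P.p} : Finset ℕ) ⊆ S ∧ (∀ v ∈ Tc, (v : ℕ) ∈ S) ∧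
        ∃ d : ℕ, 0 < d ∧ ∀ (r n : ℕ) (qv : Fin r → ℕ), Function.Injective qv →
          (∀ i, (qv i).Prime ∧ qv i ∉ S ∧ P.p ^ (n + 1) ∣ qv i - 1) →
          (∀ i, IsTWPrime (ihrRep P (ResidueField 𝒪)) (qv i)) →
          IhaHecke P.p (ihrRep P (ResidueField 𝒪)) b (fun _ _ _ ρ => ρ.IsFlatAt P.p)
            {2, P.p} Tc φv σv ϖ μ cs q₀ r d qv n

/-- `v - 1 = p ^ a * u` with `p ∤ u`, `0 < a` for `v ≡ 1 mod p`, `v > 1` -/
theorem iha_exists_val {p v : ℕ} (hp : p.Prime) (hv : 1 < v) (h1 : p ∣ v - 1) :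
    ∃ a u : ℕ, v = 1 + p ^ a * u ∧ ¬ p ∣ u ∧ 0 < a := by
  have hv0 : v - 1 ≠ 0 := by omega
  obtain ⟨a, u, hu, hvu⟩ := Nat.exists_eq_pow_mul_and_not_dvd hv0 p hp.ne_one
  refine ⟨a, u, by omega, hu, ?_⟩
  rcases Nat.eq_zero_or_pos a with rfl | ha
  · rw [pow_zero, one_mul] at hvu
    exact absurd (hvu ▸ h1) hu
  · exact ha

/-- **(W3): case (C) of S43 from the modular side** -/
theorem iha_ihara (hmod : IhaModular) : IhwIhara := by
  classical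
  intro P N hcond hpN hirr hmodN hmin hC q hq hqN hq2
  haveI : Fact P.p.Prime := ⟨P.pp⟩
  have hp : P.p.Prime := P.pp
  have hp2 : P.p ≠ 2 := by have := P.hp5; omega
  have hp2' : 2 < P.p := by have := P.hp5; omega
  -- the C-primes
  set Tc : Finset Nat.Primes :=
    (Finset.subtype Nat.Prime (N.primeFactors.filter (· ≠ 2)) : Finset {x : ℕ // x.Prime})
    with hTcdef
  have hTc : ∀ v : Nat.Primes, v ∈ Tc ↔ (v : ℕ) ∣ N ∧ (v : ℕ) ≠ 2 := by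
    intro v
    have h0 : v ∈ Tc ↔ (v : ℕ) ∈ N.primeFactors.filter (· ≠ 2) :=
      Finset.mem_subtype (p := Nat.Prime) (s := N.primeFactors.filter (· ≠ 2)) (a := v)
    rw [h0, Finset.mem_filter, Nat.mem_primeFactors]
    constructor
    · rintro ⟨⟨-, h1, -⟩, h2⟩
      exact ⟨h1, h2⟩
    · rintro ⟨h1, h2⟩
      exact ⟨⟨v.2, h1, hcond.pos.ne'⟩, h2⟩
  have hCv : ∀ v : ↥Tc, IhwCPrime P ((v : Nat.Primes) : ℕ) := fun v =>
    hC _ (v : Nat.Primes).2 ((hTc v).1 v.2).1 ((hTc v).1 v.2).2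
  -- the valuations
  have hval : ∀ v : ↥Tc, ∃ a u : ℕ, ((v : Nat.Primes) : ℕ) = 1 + P.p ^ a * u ∧ ¬ P.p ∣ u ∧ 0 < a :=
    fun v => iha_exists_val hp (v : Nat.Primes).2.one_lt (hCv v).one_mod
  choose av uv hav huv hav0 using hval
  set Amax : ℕ := ∑ v : ↥Tc, av v with hAmax
  have hav_le : ∀ v : ↥Tc, av v ≤ Amax := fun v =>
    Finset.single_le_sum (f := av) (fun _ _ => Nat.zero_le _) (Finset.mem_univ v)
  -- the coefficient ring
  obtain ⟨𝒪, i1, i2, i3, i4, i5, i6, hp𝒪, ⟨ζ₀, hζ₀⟩, hsqZ⟩ :=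
    iho_exists P.p hp2 (P.p ^ Amax) (pow_pos hp.pos _)
  letI : Algebra (ZMod P.p) (ResidueField 𝒪) := tw_algebraZModResidue P.p hp𝒪
  have hsq : ∀ a : ZMod P.p, IsSquare (algebraMap (ZMod P.p) (ResidueField 𝒪) a) := by
    intro a
    have h1 : a = ((a.val : ℤ) : ZMod P.p) := by
      rw [Int.cast_natCast, ZMod.natCast_zmod_val]
    rw [h1, map_intCast]
    exact hsqZ _
  set ρbar : ResidualGaloisRep (ResidueField 𝒪) := ihrRep P (ResidueField 𝒪) with hρbar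
  set b : Module.Basis (Fin 2) (ResidueField 𝒪) ρbar.V :=
    Module.finBasisOfFinrankEq (ResidueField 𝒪) ρbar.V ρbar.finrank_eq with hb
  -- Frobenius elements and generators
  have hTcp : ∀ v ∈ Tc, (v : ℕ) ≠ P.p := fun v hv => (hCv ⟨v, hv⟩).ne_p
  obtain ⟨φv, σv, hφv, hσv⟩ := ihg_exists_frob_gen P.p Tc hTcp
  -- the uniformiser
  obtain ⟨ϖ, hϖirr⟩ := IsDiscreteValuationRing.exists_irreducible 𝒪
  have hϖ : maximalIdeal 𝒪 = Ideal.span {ϖ} := hϖirr.maximalIdeal_eq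
  have hϖ0 : ϖ ≠ 0 := hϖirr.ne_zero
  -- the roots of unity
  have hμex : ∀ v : ↥Tc, ∃ μ : Finset 𝒪ˣ,
      (Polynomial.X ^ (P.p ^ av v) - 1 : Polynomial 𝒪) =
        (Polynomial.X - 1) * ∏ ζ ∈ μ, (Polynomial.X - Polynomial.C (ζ : 𝒪)) ∧
      (∀ ζ ∈ μ, (ζ : 𝒪) - 1 ∈ maximalIdeal 𝒪) ∧ (∀ ζ ∈ μ, (ζ : 𝒪) ^ 2 ≠ 1) ∧
      (∀ ζ ∈ μ, ζ ^ (P.p ^ av v) = 1 ∧ ζ ≠ 1) ∧
      ∃ ζ ∈ μ, IsPrimitiveRoot (ζ : 𝒪) (P.p ^ av v) := by
    intro v
    have h1 : IsPrimitiveRoot (ζ₀ ^ (P.p ^ (Amax - av v))) (P.p ^ av v) := by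
      refine hζ₀.pow (pow_pos hp.pos _) ?_
      rw [← pow_add, Nat.sub_add_cancel (hav_le v)]
    obtain ⟨μ, h2, h3, h4, h5⟩ := ihta_exists_mu hp hp2 hp𝒪 (av v) _ h1
    refine ⟨μ, h2, h3, h4, h5, ?_⟩
    -- the primitive root is one of the `ζ ∈ μ`
    set z : 𝒪 := ζ₀ ^ (P.p ^ (Amax - av v)) with hz
    have hz1 : z ≠ 1 := by
      intro h
      have h6 := h1.pow_eq_one
      have h7 : P.p ^ av v = 1 := by
        have := h1.eq_orderOf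
        rw [h, orderOf_one] at this
        exact this
      have h8 : 1 < P.p ^ av v := Nat.one_lt_pow (hav0 v).ne' hp.one_lt
      omega
    have h6 := congrArg (Polynomial.eval z) h2
    rw [Polynomial.eval_sub, Polynomial.eval_pow, Polynomial.eval_X, Polynomial.eval_one,
      h1.pow_eq_one, sub_self, Polynomial.eval_mul, Polynomial.eval_sub, Polynomial.eval_X,
      Polynomial.eval_one, Polynomial.eval_prod] at h6
    rcases mul_eq_zero.mp h6.symm with h7 | h7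
    · exact absurd (sub_eq_zero.mp h7) hz1
    · obtain ⟨ζ, hζμ, hζ⟩ := Finset.prod_eq_zero_iff.mp h7
      rw [Polynomial.eval_sub, Polynomial.eval_X, Polynomial.eval_C, sub_eq_zero] at hζ
      exact ⟨ζ, hζμ, by rw [← hζ]; exact h1⟩
  choose μ hμ hμ1 hμ2 hμ3 hμ4 using hμex
  -- the signs
  have hcsex : ∀ v : ↥Tc, ∃ cs : 𝒪ˣ, (cs : 𝒪) ^ 2 = 1 ∧
      ρbar.ρ (φv v) = residue 𝒪 (cs : 𝒪) • 1 := fun v =>
    ihr_sign P (v : Nat.Primes).2 (hCv v).ne_p (hCv v).one_mod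
      (tw_primeLocalPlace_liesOver v) (hφv v v.2)
      ((hCv v).scalar _ (tw_primeLocalPlace_liesOver v) _ (hφv v v.2))
  choose cs hcs hcsρ using hcsex
  have hσρ : ∀ v : ↥Tc, ρbar.ρ (σv v) = 1 := fun v =>
    ihr_inertia_eq_one P (ResidueField 𝒪) (hCv v).unram (tw_primeLocalPlace_liesOver v)
      (hσv v v.2).mem
  have hTc1 : ∀ v : ↥Tc, ((((v : Nat.Primes) : ℕ) : 𝒪) - 1) ∈ maximalIdeal 𝒪 := fun v =>
    iho_sub_one_mem hp𝒪 (v : Nat.Primes).2.pos (hCv v).one_mod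
  -- the distinguished prime
  set q₀ : ↥Tc := ⟨⟨q, hq⟩, (hTc ⟨q, hq⟩).2 ⟨hqN, hq2⟩⟩ with hq₀
  -- the modular side
  obtain ⟨S, hS1, hS2, d, hd, hHecke⟩ := hmod P N hcond hpN hirr hmodN hmin hC 𝒪 hp𝒪 hsq b Tc hTc
    φv σv hφv hσv ϖ hϖ μ (fun v => ⟨av v, uv v, hav v, huv v, hav0 v, hμ v, hμ3 v, hμ4 v⟩) cs hcs hcsρ q₀
  -- `[G1]`
  have hTcSmin : ∀ v ∈ Tc, (v : ℕ) ∉ ({2, P.p} : Finset ℕ) := by
    intro v hv h
    rw [Finset.mem_insert, Finset.mem_singleton] at h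
    rcases h with h | h
    · exact ((hTc v).1 hv).2 h
    · exact hTcp v hv h
  obtain ⟨r, hG1⟩ := ihg_main P.p hp2 hp𝒪 ρbar (ihr_habs P (ResidueField 𝒪) hirr)
    (ihr_hdet P (ResidueField 𝒪)) (ihr_hsplit P (ResidueField 𝒪) hsq)
    (ihr_hTW P (ResidueField 𝒪) hirr) b S {2, P.p}
    (by rw [Finset.mem_insert, Finset.mem_singleton]; exact Or.inr rfl) hS1
    (ihr_hmin P (ResidueField 𝒪)) Tc hTcSmin hS2 φv σv hφv hσv
    (fun v hv => ⟨_, hcsρ ⟨v, hv⟩⟩)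
  -- the assembly
  exact iha_main P.p ρbar b (fun _ _ _ ρ => ρ.IsFlatAt P.p)
    (iho_isUnit_two hp hp2 hp𝒪) ϖ hϖ hϖ0 hp𝒪 S {2, P.p} Tc φv σv μ hμ1 hμ2 cs hcs hcsρ hσρ hTc1
    q₀ r d hd hG1
    (fun n qv h1 h2 h3 => iha_level_of_hecke P.p ρbar b (fun _ _ _ ρ => ρ.IsFlatAt P.p) hp2' hp𝒪
      (by exact_mod_cast hp.ne_zero) {2, P.p} Tc φv σv ϖ μ cs q₀ r d qv n
      (hHecke r n qv h1 h2 h3))

end Fermat.Agent.Ihara
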